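import Fermat.Agent.S56.GW.Dual.Global

/-!
# S56 / [GW-DUAL] DL: the local dictionary (prefix `s56gdd_`)

`s56gdd_main : s56gd_DL_stmt`: for a plain level `a ≥ K0`, `w ∈ H¹(D_q(a), M')` and
`t ∈ Hom_{D_q(a)}(R, X_q(a))`:
`B_q(δ⁰(λ ∘ t), infl w) = inv_{q,a}(t_*(δ¹ w))`.

Steps: `s56gdd_d1_comm` (`δ¹` commutes with inflation: `LvSESMor.δ1_comm` for the morphism of
sequences `s56gdd_sesMor` from `0 → R → F → M' → 0` over `D_q(a)` to the one over `G_q`),
`s56gdd_star_infl` (`(λ ∘ t) ⋆ infl z = infl_X (t_* z)`), `I.spec`.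
-/

set_option autoImplicit false
set_option linter.unusedSectionVars false

open CategoryTheory groupCohomology ExtCitation

namespace Fermat.Agent.S56

open Fermat.Agent.S55

local notation "Qbar" => AlgebraicClosure ℚ
local notation "GQ" => (AlgebraicClosure ℚ ≃ₐ[ℚ] AlgebraicClosure ℚ)

noncomputable section

variable {p : ℕ} [Fact p.Prime] (M : Rep.{0} (ZMod p) GQ) [FiniteDimensional (ZMod p) M]
  (hsm : s56gw_Smooth M) (a : s56gd_Fld) (ha : s56gd_K0 M hsm ≤ a) (q : Nat.Primes)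

/-- **The finite quotient `D_q(a)` of `G_q` for a `Δ₀`-module `Y`** (inflated to `G_q`, resp.
restricted to `D_q(a)`); the comparison map is the identity. -/
def s56gdd_QY (Y : Rep.{0} ℤ (s56gd_K0 M hsm).Γ) :
    LvQuot (tl_levelsLoc q) (dm_Yl (s56gd_pi0 M hsm) q Y) ↥(s56gd_D q a)
      (tl_Act (tt_res (s56gd_D q a) (Rep.res (s56gd_ra M hsm a ha) Y))) where
  q := s56gd_locq q a
  q_surj := s56gd_locq_surjective q a
  level := ⟨a.L.fixingSubgroup.comap (primeLocalToGlobal q),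
    ⟨a.L.fixingSubgroup, ⟨a.L, inferInstance, rfl⟩, rfl⟩,
    fun τ hτ => (s56gd_mem_ker_locq q a τ).2 hτ⟩
  φ := AddMonoidHom.id Y.V
  φ_inj := fun _ _ h => h
  equivariant := fun τ y => by
    show Y.ρ (s56gd_ra M hsm a ha (a.q (primeLocalToGlobal q τ))) y = _
    rw [s56gd_ra_q]
    rfl
  range_eq := fun y _ => ⟨y, rfl⟩

/-- The morphism of short exact sequences from `0 → R → F → M' → 0` over `D_q(a)` to the same
sequence over `G_q`. -/
def s56gdd_sesMor :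
    LvSESMor (s56gd_LlocA M hsm a ha q) (LevelSys.trivial ↥(s56gd_D q a))
      (s56gd_Lloc M hsm q) (tl_levelsLoc q) where
  mA := (s56gdd_QY M hsm a ha q (s56gd_R M hsm)).mor
  mB := (s56gdd_QY M hsm a ha q (s56gd_F M hsm)).mor
  mC := (s56gd_QN' M hsm a ha q).mor
  fAB := rfl
  fBC := rfl
  comm_i := fun _ => rfl
  comm_π := fun _ => rfl

/-- **`δ¹` commutes with inflation.** -/
theorem s56gdd_d1_comm (w : lvH1 (LevelSys.trivial ↥(s56gd_D q a))
    (tl_Act (tt_res (s56gd_D q a) (s56gd_Aa M hsm a ha)))) :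
    (s56gdd_QY M hsm a ha q (s56gd_R M hsm)).mor.H2 (s56gd_d1A M hsm a ha q w) =
      s56gd_d1 M hsm q ((s56gd_QN' M hsm a ha q).mor.H1 w) :=
  (s56gdd_sesMor M hsm a ha q).δ1_comm (sl_isSmooth_trivial _) (s56gd_smooth_Fl M hsm q) w

/-- `t ∈ Hom_{D_q(a)}(R, X_q(a))` as a coefficient morphism over `D_q(a)`. -/
def s56gdd_tMor (t : tt_res (s56gd_D q a) (s56gd_Ra M hsm a ha) ⟶ s56gd_X q a) :
    LvMor (LevelSys.trivial ↥(s56gd_D q a)) (tl_Act (tt_res (s56gd_D q a) (s56gd_Ra M hsm a ha)))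
      (LevelSys.trivial ↥(s56gd_D q a)) (tl_Act (s56gd_X q a)) :=
  LvMor.ofCoeff (LevelSys.trivial ↥(s56gd_D q a))
    (show tl_Act (tt_res (s56gd_D q a) (s56gd_Ra M hsm a ha)) →+ tl_Act (s56gd_X q a) from
      ab_homAdd t)
    (fun d r => Rep.hom_comm_apply t d r)

/-- Level cohomology of `D_q(a)` with values in `X_q(a)` is Mathlib's group cohomology. -/
def s56gdd_brdX : lvH2 (LevelSys.trivial ↥(s56gd_D q a)) (tl_Act (s56gd_X q a)) ≃+
    groupCohomology (s56gd_X q a) 2 :=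
  lvH2Equiv (s56gd_X q a) (tl_sf_actEquiv (s56gd_X q a)) (fun _ _ => rfl)

theorem s56gdd_inflX_brdX (y : lvH2 (LevelSys.trivial ↥(s56gd_D q a)) (tl_Act (s56gd_X q a))) :
    s56gd_inflX q a (s56gdd_brdX a q y) = (s56gd_QX q a).mor.H2 y := by
  show (s56gd_QX q a).mor.H2 ((s56gdd_brdX a q).symm (s56gdd_brdX a q y)) = _
  rw [AddEquiv.symm_apply_apply]

/-- The comparison isomorphisms are compatible with `t_*`. -/
theorem s56gdd_brdX_tMor (t : tt_res (s56gd_D q a) (s56gd_Ra M hsm a ha) ⟶ s56gd_X q a)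
    (z : lvH2 (LevelSys.trivial ↥(s56gd_D q a))
      (tl_Act (tt_res (s56gd_D q a) (s56gd_Ra M hsm a ha)))) :
    s56gdd_brdX a q ((s56gdd_tMor M hsm a ha q t).H2 z) =
      (tt_coeffMap t 2).hom (s56gd_toH2A M hsm a ha q z) :=
  lvH2Equiv_map (tt_res (s56gd_D q a) (s56gd_Ra M hsm a ha)) (s56gd_X q a)
    (tl_sf_actEquiv _) (fun _ _ => rfl) (tl_sf_actEquiv _) (fun _ _ => rfl)
    (s56gdd_tMor M hsm a ha q t) t (fun _ => rfl) z

/-- **`(λ ∘ t) ⋆ infl z = infl_X (t_* z)`.** -/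
theorem s56gdd_star_infl (t : tt_res (s56gd_D q a) (s56gd_Ra M hsm a ha) ⟶ s56gd_X q a)
    (z : lvH2 (LevelSys.trivial ↥(s56gd_D q a))
      (tl_Act (tt_res (s56gd_D q a) (s56gd_Ra M hsm a ha)))) :
    s56gd_star M hsm q (s56gd_lamt M hsm a ha q t)
        ((s56gdd_QY M hsm a ha q (s56gd_R M hsm)).mor.H2 z) =
      s56gd_inflX q a ((tt_coeffMap t 2).hom (s56gd_toH2A M hsm a ha q z)) := by
  rw [← s56gdd_brdX_tMor, s56gdd_inflX_brdX]
  obtain ⟨c, rfl⟩ := lvH2mk_surjective z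
  rfl

/-- `p` kills `H¹(D_q(a), M')`. -/
theorem s56gdd_nsmul_w (w : lvH1 (LevelSys.trivial ↥(s56gd_D q a))
    (tl_Act (tt_res (s56gd_D q a) (s56gd_Aa M hsm a ha)))) : p • w = 0 := by
  have h : ∀ y : (s56gd_A M hsm).V, p • y = 0 := fun y => by
    apply (s56gd_e M hsm).injective
    rw [map_nsmul, map_zero]
    exact s56gd_nsmul_act (s56gw_dual M) _
  exact lvH1_nsmul_eq_zero
    (A := tl_Act (tt_res (s56gd_D q a) (s56gd_Aa M hsm a ha))) (fun x => h x) w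

/-- `t_*(δ¹ w)` is `p`-primary. -/
theorem s56gdd_isPPrimary (t : tt_res (s56gd_D q a) (s56gd_Ra M hsm a ha) ⟶ s56gd_X q a)
    (w : lvH1 (LevelSys.trivial ↥(s56gd_D q a))
      (tl_Act (tt_res (s56gd_D q a) (s56gd_Aa M hsm a ha)))) :
    tt_IsPPrimary p
      ((tt_coeffMap t 2).hom (s56gd_toH2A M hsm a ha q (s56gd_d1A M hsm a ha q w))) := by
  refine ⟨1, ?_⟩
  rw [pow_one, ← map_nsmul, ← map_nsmul, ← map_nsmul, s56gdd_nsmul_w, map_zero, map_zero, map_zero]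

end

/-- **SEAM [DL] IS PROVED: the local dictionary.** -/
theorem s56gdd_main : s56gd_DL_stmt := by
  intro p _ M _ hsm q I a ha w t
  rw [s56gd_Bq_spec]
  have h1 : s56gd_star M hsm q (s56gd_lamt M hsm a ha q t)
      (s56gd_d1 M hsm q ((s56gd_QN' M hsm a ha q).mor.H1 w)) =
      s56gd_inflX q a ((tt_coeffMap t 2).hom
        (s56gd_toH2A M hsm a ha q (s56gd_d1A M hsm a ha q w))) := by
    rw [← s56gdd_d1_comm, s56gdd_star_infl]
  have h2 := I.spec a _ (s56gdd_isPPrimary M hsm a ha q t w)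
    (h1 ▸ s56gd_star_d1_mem M hsm q (s56gd_lamt M hsm a ha q t)
      ((s56gd_QN' M hsm a ha q).mor.H1 w))
  rw [← h2]
  congr 1
  exact Subtype.ext h1

end Fermat.Agent.S56
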